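import Mathlib
import Fermat.Agent.S54.Frobenius
import Fermat.Agent.Lib.MinkowskiBridge
import Fermat.Prelude.Def_EllipticCurve_FrobeniusTrace

/-! Frobenius density, lifting part: from a prime `P` of a finite Galois number field
`L ⊆ ℚ̄` whose decomposition group is generated by `g|_L`, to a Frobenius element `s` of
`Gal(ℚ̄/ℚ)` with `s ^ b = g` on `L`. -/

set_option autoImplicit false

open scoped Pointwise NumberField

namespace Fermat.Agent.Lib.FrobeniusDensity

open Fermat.Agent.S54.Frobenius Fermat.Agent.Lib.MinkowskiBridge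

section general

variable {K F : Type*} [Field K] [Field F] [Algebra K F]

/-- Elements of the decomposition group preserve the valuation subring. -/
theorem apply_mem_of_mem_decomposition (A : ValuationSubring F) {σ : F ≃ₐ[K] F}
    (hσ : σ ∈ A.decompositionSubgroup K) {x : F} (hx : x ∈ A) : σ x ∈ A :=
  ((⟨σ, hσ⟩ : A.decompositionSubgroup K) • (⟨x, hx⟩ : A)).2

theorem apply_mem_iff_of_mem_decomposition (A : ValuationSubring F) {σ : F ≃ₐ[K] F}
    (hσ : σ ∈ A.decompositionSubgroup K) (x : F) : σ x ∈ A ↔ x ∈ A := by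
  refine ⟨fun h => ?_, apply_mem_of_mem_decomposition A hσ⟩
  have h1 := apply_mem_of_mem_decomposition A ((A.decompositionSubgroup K).inv_mem hσ) h
  simpa using h1

theorem valuation_lt_one_iff_of_mem_decomposition (A : ValuationSubring F) {σ : F ≃ₐ[K] F}
    (hσ : σ ∈ A.decompositionSubgroup K) (x : F) :
    A.valuation (σ x) < 1 ↔ A.valuation x < 1 := by
  have key : ∀ y : F, A.valuation y < 1 ↔ y = 0 ∨ y⁻¹ ∉ A := by
    intro y
    by_cases hy : y = 0
    · simp [hy]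
    · rw [← A.valuation_le_one_iff, map_inv₀, ← not_le]
      simp only [hy, false_or]
      rw [inv_le_one₀ (zero_lt_iff.mpr ((map_ne_zero A.valuation).mpr hy))]
  rw [key, key, ← map_inv₀, apply_mem_iff_of_mem_decomposition A hσ]
  simp

/-- A Frobenius element acts as the `q`-th power map modulo the maximal ideal. -/
theorem valuation_sub_pow_lt_one_of_isFrobeniusAt {A : ValuationSubring F} {σ : F ≃ₐ[K] F}
    {q : ℕ} (h : A.IsFrobeniusAt σ q) {x : F} (hx : x ∈ A) : A.valuation (σ x - x ^ q) < 1 := by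
  obtain ⟨hd, hf⟩ := h
  have h2 := hf (IsLocalRing.residue A ⟨x, hx⟩)
  rw [← IsLocalRing.ResidueField.residue_smul, ← map_pow, ← sub_eq_zero, ← map_sub,
    IsLocalRing.residue_eq_zero_iff, ValuationSubring.valuation_lt_one_iff] at h2
  exact h2

/-- A finite field all of whose elements satisfy `x ^ q = x` has at most `q` elements. -/
theorem card_le_of_forall_pow_eq {k : Type*} [Field k] [Fintype k] {q : ℕ} (hq : 1 < q)
    (h : ∀ x : k, x ^ q = x) : Fintype.card k ≤ q := by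
  classical
  have h1 := Polynomial.card_le_degree_of_subset_roots (R := k)
    (p := Polynomial.X ^ q - Polynomial.X) (Z := Finset.univ) (fun x _ => by
      rw [Polynomial.mem_roots (FiniteField.X_pow_card_sub_X_ne_zero k hq)]
      simp [Polynomial.IsRoot, h x])
  rwa [FiniteField.X_pow_card_sub_X_natDegree_eq k hq, Finset.card_univ] at h1

end general

section abstract

variable {L : Type*} [Field L] [NumberField L] [IsGalois ℚ L]

/-- **(FROB)**: if `τ` acts as the `ℓ`-th power map modulo a prime `P` over `ℓ` with trivial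
inertia group, then `τ` generates the decomposition group of `P`. -/
theorem zpowers_eq_stabilizer_of_frobenius {ℓ : ℕ} (hℓ : ℓ.Prime) (P : Ideal (𝓞 L)) [P.IsPrime]
    [P.LiesOver (Ideal.span {(ℓ : ℤ)})] (hI : P.inertia (L ≃ₐ[ℚ] L) = ⊥) (τ : L ≃ₐ[ℚ] L)
    (hτ : ∀ y : 𝓞 L, τ • y - y ^ ℓ ∈ P) :
    Subgroup.zpowers τ = MulAction.stabilizer (L ≃ₐ[ℚ] L) P := by
  have : Fact ℓ.Prime := ⟨hℓ⟩
  have hPmax : P.IsMaximal := Ideal.IsMaximal.of_liesOver_isMaximal P (Ideal.span {(ℓ : ℤ)})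
  -- τ stabilises P
  have hstab : τ ∈ MulAction.stabilizer (L ≃ₐ[ℚ] L) P := by
    rw [MulAction.mem_stabilizer_iff]
    have hmax' : (τ • P).IsMaximal :=
      Ideal.IsMaximal.of_liesOver_isMaximal (τ • P) (Ideal.span {(ℓ : ℤ)})
    refine hmax'.eq_of_le hPmax.ne_top ?_
    intro x hx
    rw [Ideal.mem_pointwise_smul_iff_inv_smul_mem] at hx
    have h1 := hτ (τ⁻¹ • x)
    rw [smul_inv_smul] at h1
    have h2 : x = (x - (τ⁻¹ • x) ^ ℓ) + (τ⁻¹ • x) ^ ℓ := by ring
    rw [h2]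
    exact P.add_mem h1 (P.pow_mem_of_mem hx ℓ hℓ.pos)
  -- the order of the decomposition group
  have hcard : Nat.card (MulAction.stabilizer (L ≃ₐ[ℚ] L) P) = P.inertiaDeg ℤ := by
    rw [Ideal.card_stabilizer_eq_card_inertia_mul_finrank (Ideal.span {(ℓ : ℤ)}) P, hI,
      Subgroup.card_bot, one_mul]
  -- the residue field
  let := Ideal.Quotient.field P
  have hfin : Finite (𝓞 L ⧸ P) := (Ideal.absNorm_ne_zero_iff P).mp (by
    rw [← Ideal.natAbs_pow_inertiaDeg (ℓ : ℤ) P]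
    exact pow_ne_zero _ (by simpa using hℓ.ne_zero))
  let := Fintype.ofFinite (𝓞 L ⧸ P)
  have hN : Fintype.card (𝓞 L ⧸ P) = ℓ ^ P.inertiaDeg ℤ := by
    have h := Ideal.natAbs_pow_inertiaDeg (ℓ : ℤ) P
    rw [Ideal.absNorm_apply, Submodule.cardQuot_apply, Nat.card_eq_fintype_card] at h
    simpa using h.symm
  -- powers of τ act as iterated Frobenius
  have hpow : ∀ (k : ℕ) (y : 𝓞 L), Ideal.Quotient.mk P ((τ ^ k) • y) =
      (Ideal.Quotient.mk P y) ^ (ℓ ^ k) := by
    intro k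
    induction k with
    | zero => intro y; simp
    | succ k ih =>
      intro y
      rw [pow_succ', mul_smul]
      have h1 : Ideal.Quotient.mk P (τ • ((τ ^ k) • y)) =
          (Ideal.Quotient.mk P ((τ ^ k) • y)) ^ ℓ := by
        rw [← map_pow, Ideal.Quotient.eq]
        exact hτ _
      rw [h1, ih, ← pow_mul, ← pow_succ]
  have hm : 0 < orderOf τ := orderOf_pos τ
  have hle : P.inertiaDeg ℤ ≤ orderOf τ := by
    have h1 : Fintype.card (𝓞 L ⧸ P) ≤ ℓ ^ orderOf τ := by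
      refine card_le_of_forall_pow_eq (Nat.one_lt_pow hm.ne' hℓ.one_lt) fun x => ?_
      obtain ⟨y, rfl⟩ := Ideal.Quotient.mk_surjective x
      rw [← hpow, pow_orderOf_eq_one, one_smul]
    rw [hN] at h1
    exact (Nat.pow_le_pow_iff_right hℓ.one_lt).mp h1
  refine Subgroup.eq_of_le_of_card_ge (Subgroup.zpowers_le.mpr hstab) ?_
  rw [hcard, Nat.card_zpowers]
  exact hle

end abstract

section rat

local notation "Qb" => AlgebraicClosure ℚ
local notation "Γ" => (AlgebraicClosure ℚ ≃ₐ[ℚ] AlgebraicClosure ℚ)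

attribute [local instance] isAlgClosure_rat

/-- Every maximal ideal of the ring of integers of a subfield of `ℚ̄` lies below a valuation
subring of `ℚ̄`. -/
theorem exists_valuationSubring_primeBelow (L : IntermediateField ℚ Qb) (P : Ideal (𝓞 L))
    [hP : P.IsMaximal] : ∃ A : ValuationSubring Qb, primeBelow A L = P := by
  let φ : 𝓞 L →+* Qb := (algebraMap L Qb).comp (algebraMap (𝓞 L) L)
  have hφ : Function.Injective φ :=
    (algebraMap L Qb).injective.comp NumberField.RingOfIntegers.coe_injective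
  let I : Ideal φ.range := P.map φ.rangeRestrict
  have hI : I ≠ ⊤ := by
    intro h
    have h1 : (1 : φ.range) ∈ I := h ▸ Submodule.mem_top
    obtain ⟨y, hy, hy1⟩ := (Ideal.mem_map_iff_of_surjective _ φ.rangeRestrict_surjective).mp h1
    have h2 : φ y = 1 := congrArg Subtype.val hy1
    have h3 : y = 1 := hφ (by rw [h2, map_one])
    exact hP.ne_top ((Ideal.eq_top_iff_one P).mpr (h3 ▸ hy))
  obtain ⟨B, -, hB⟩ := Ideal.image_subset_nonunits_valuationSubring I hI
  refine ⟨B, ?_⟩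
  symm
  refine hP.eq_of_le (primeBelow_isPrime B L).ne_top ?_
  intro y hy
  rw [mem_primeBelow]
  have h1 : φ y ∈ B.nonunits := hB ⟨φ.rangeRestrict y, Ideal.mem_map_of_mem _ hy, rfl⟩
  exact B.mem_nonunits_iff.mp h1

/-- **(LIFT)**: a prime of a finite Galois `L ⊆ ℚ̄` with trivial inertia group and decomposition
group generated by `g|_L` gives a Frobenius element `s` of `Gal(ℚ̄/ℚ)` with `⟨s|_L⟩ = ⟨g|_L⟩`. -/
theorem exists_frobenius_of_stabilizer (L : IntermediateField ℚ Qb) [FiniteDimensional ℚ L]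
    [Normal ℚ L] (g : Γ) {ℓ : ℕ} (hℓ : ℓ.Prime) (P : Ideal (𝓞 L)) [P.IsPrime]
    [hPl : P.LiesOver (Ideal.span {(ℓ : ℤ)})] (hI : P.inertia (L ≃ₐ[ℚ] L) = ⊥)
    (hst : MulAction.stabilizer (L ≃ₐ[ℚ] L) P =
      Subgroup.zpowers (AlgEquiv.restrictNormalHom L g)) :
    ∃ (A : ValuationSubring Qb) (s : Γ) (b c : ℕ), A.LiesOverPrime ℓ ∧ A.IsFrobeniusAt s ℓ ∧
      0 < b ∧ (∀ x ∈ L, (s ^ b) x = g x) ∧ (∀ x ∈ L, (g ^ c) x = s x) := by
  have : Fact ℓ.Prime := ⟨hℓ⟩
  have hnf : NumberField L := ⟨⟩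
  have hgal : IsGalois ℚ L := ⟨⟩
  have hPmax : P.IsMaximal := Ideal.IsMaximal.of_liesOver_isMaximal P (Ideal.span {(ℓ : ℤ)})
  obtain ⟨A, hA⟩ := exists_valuationSubring_primeBelow L P
  have hℓP : (ℓ : 𝓞 L) ∈ P := by
    have h := (Ideal.liesOver_span_iff hPmax.ne_top (Nat.prime_iff_prime_int.mp hℓ)).mp hPl
    simpa using h
  have hAℓ : A.LiesOverPrime ℓ := by
    have h1 : (ℓ : 𝓞 L) ∈ primeBelow A L := hA ▸ hℓP
    rw [mem_primeBelow] at h1
    exact A.mem_nonunits_iff.mpr (by simpa using h1)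
  obtain ⟨s, hs⟩ := exists_isFrobeniusAt A hℓ hAℓ
  have hcoe : ∀ (t : Γ) (y : L), ((AlgEquiv.restrictNormalHom L t y : L) : Qb) = t (y : Qb) :=
    fun t y => AlgEquiv.restrictNormal_commutes t L y
  set τ := AlgEquiv.restrictNormalHom L s with hτdef
  set σ := AlgEquiv.restrictNormalHom L g with hσdef
  have hτ : ∀ y : 𝓞 L, τ • y - y ^ ℓ ∈ P := by
    intro y
    rw [← hA, mem_primeBelow]
    have hy : ((y : L) : Qb) ∈ A :=
      (A.valuation_le_one_iff _).mp (valuation_ringOfIntegers_le_one A L y)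
    have h1 := valuation_sub_pow_lt_one_of_isFrobeniusAt hs hy
    have h2 : ((((τ • y - y ^ ℓ : 𝓞 L) : L) : Qb)) = s ((y : L) : Qb) - ((y : L) : Qb) ^ ℓ := by
      rw [← hcoe s (y : L)]
      simp
      rfl
    rw [h2]
    exact h1
  have hz := zpowers_eq_stabilizer_of_frobenius hℓ P hI τ hτ
  rw [hst] at hz
  have hpow : ∀ a c : L ≃ₐ[ℚ] L, a ∈ Subgroup.zpowers c → ∃ n : ℕ, 0 < n ∧ c ^ n = a := by
    intro a c hac
    obtain ⟨n, hn⟩ := (isOfFinOrder_of_finite c).mem_powers_iff_mem_zpowers.mpr hac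
    refine ⟨n + orderOf c, Nat.add_pos_right _ (orderOf_pos c), ?_⟩
    rw [pow_add, pow_orderOf_eq_one, mul_one]
    exact hn
  obtain ⟨b, hb, hbσ⟩ := hpow σ τ (hz ▸ Subgroup.mem_zpowers σ)
  obtain ⟨c, -, hcτ⟩ := hpow τ σ (hz ▸ Subgroup.mem_zpowers τ)
  refine ⟨A, s, b, c, hAℓ, hs, hb, fun x hx => ?_, fun x hx => ?_⟩
  · have h1 := hcoe (s ^ b) ⟨x, hx⟩
    rw [map_pow, ← hτdef, hbσ, hσdef, hcoe g ⟨x, hx⟩] at h1
    exact h1.symm
  · have h1 := hcoe (g ^ c) ⟨x, hx⟩
    rw [map_pow, ← hσdef, hcτ, hτdef, hcoe s ⟨x, hx⟩] at h1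
    exact h1.symm

/-- Every finite subextension of `ℚ̄/ℚ` is contained in a finite normal one. -/
theorem exists_normal_finite_ge (L : IntermediateField ℚ Qb) [FiniteDimensional ℚ L] :
    ∃ L' : IntermediateField ℚ Qb, L ≤ L' ∧ FiniteDimensional ℚ L' ∧ Normal ℚ L' := by
  refine ⟨_, IntermediateField.le_normalClosure L, ?_, ?_⟩
  · exact normalClosure.is_finiteDimensional ℚ L Qb
  · exact normalClosure.normal ℚ L Qb

/-- The statement of the counting half of the Frobenius density theorem for a Galois number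
field: every cyclic subgroup is the decomposition group of an unramified prime outside any
given finite set. -/
def DensityStatement (L : Type) [Field L] [NumberField L] [IsGalois ℚ L] : Prop :=
  ∀ (σ : L ≃ₐ[ℚ] L) (S : Finset ℕ), ∃ (ℓ : ℕ) (P : Ideal (𝓞 L)), ℓ.Prime ∧ ℓ ∉ S ∧ P.IsPrime ∧
    P.LiesOver (Ideal.span {(ℓ : ℤ)}) ∧ P.inertia (L ≃ₐ[ℚ] L) = ⊥ ∧
    MulAction.stabilizer (L ≃ₐ[ℚ] L) P = Subgroup.zpowers σ

/-- Reduction of the Frobenius density theorem (generator form) to its counting half. -/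
theorem exists_frobenius_generator_of
    (hD : ∀ (L : Type) [Field L] [NumberField L] [IsGalois ℚ L], DensityStatement L)
    (L : IntermediateField ℚ Qb) [FiniteDimensional ℚ L] (S : Finset ℕ) (g : Γ) :
    ∃ (ℓ : ℕ) (A : ValuationSubring Qb) (s : Γ) (b c : ℕ), ℓ.Prime ∧ ℓ ∉ S ∧
      A.LiesOverPrime ℓ ∧ A.IsFrobeniusAt s ℓ ∧ 0 < b ∧ (∀ x ∈ L, (s ^ b) x = g x) ∧
      (∀ x ∈ L, (g ^ c) x = s x) := by
  obtain ⟨L', hLL', hfd, hn⟩ := exists_normal_finite_ge L
  have hnf : NumberField L' := ⟨⟩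
  have hgal : IsGalois ℚ L' := ⟨⟩
  obtain ⟨ℓ, P, hℓ, hℓS, hP, hPl, hI, hst⟩ := hD L' (AlgEquiv.restrictNormalHom L' g) S
  obtain ⟨A, s, b, c, hA, hs, hb, h1, h2⟩ := exists_frobenius_of_stabilizer L' g hℓ P hI hst
  exact ⟨ℓ, A, s, b, c, hℓ, hℓS, hA, hs, hb,
    fun x hx => h1 x (hLL' hx), fun x hx => h2 x (hLL' hx)⟩

end rat

end Fermat.Agent.Lib.FrobeniusDensity
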